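/-
P-MW row 686 (MW-INTERP): integral interpolation ("divided differences").

`interpolation : Fermat.Agent.H92.MW.InterpolationStatement`.

Proof.  `z a := P a u`, `PP := (P a)_a : O → V^n`, `ν := ∏ (X - z a)`; `ν(z) = 0` in `V^n` and
`ν ≡ X^n` modulo the maximal ideal of `V`.  `B₁ := V[PP(S)] ⊆ V^n` is a finite `V`-module
(`V^n` is integral over `V`) containing `PP(O)` (the inverse of a unit of `V^n` lying in `B₁` is
integral over `B₁`, hence in `B₁`).  With `N := V[z]` one has `B₁ ≤ N + 𝔪_V B₁`
(`h = q(u) + u^n g` gives `PP(h) = q(z) + z^n PP(g)` and `z^n ∈ ∑_{i<n} 𝔪_V z^i`), hence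
`B₁ ≤ N` by Nakayama over `V`.  Finally `PP(h) = ∑ c_i z^i + z^n G(z)` and
`(X^n G) mod ν` has degree `< n` and coefficients in `𝔪_V`.
-/
import Fermat.Agent.H92.MW.CoreInterfaces

set_option autoImplicit false

noncomputable section

open Polynomial

namespace Fermat.Agent.H96.MW

/-- The inverse of a unit lying in a subalgebra lies in the subalgebra as soon as it is
integral over the base ring. -/
theorem inv_mem_of_isIntegral {R A : Type*} [CommRing R] [CommRing A] [Algebra R A]
    (B : Subalgebra R A) {x y : A} (hx : x ∈ B) (hxy : x * y = 1) (hy : IsIntegral R y) :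
    y ∈ B := by
  obtain ⟨p, hp, hpy⟩ := hy
  let _ : Invertible y := ⟨x, hxy, by rw [mul_comm]; exact hxy⟩
  have h1 := Polynomial.eval₂_reverse_mul_pow (algebraMap R A) y p
  have h2 : eval₂ (algebraMap R A) x p.reverse = 0 := by
    have h1' : eval₂ (algebraMap R A) x p.reverse * y ^ p.natDegree = 0 := by
      rw [← hpy, ← h1]; rfl
    have : eval₂ (algebraMap R A) x p.reverse * y ^ p.natDegree * x ^ p.natDegree = 0 := by
      rw [h1', zero_mul]
    rwa [mul_assoc, ← mul_pow, mul_comm y x, hxy, one_pow, mul_one] at this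
  have h3 : p.reverse = X * p.reverse.divX + C 1 := by
    have := (Polynomial.X_mul_divX_add p.reverse).symm
    rwa [Polynomial.coeff_zero_reverse, hp.leadingCoeff] at this
  rw [h3] at h2
  simp only [eval₂_add, eval₂_mul, eval₂_X, map_one, eval₂_one] at h2
  have h4 : y = - eval₂ (algebraMap R A) x p.reverse.divX := by
    have : y * (x * eval₂ (algebraMap R A) x p.reverse.divX + 1) = 0 := by rw [h2, mul_zero]
    rw [mul_add, ← mul_assoc, mul_comm y x, hxy, one_mul, mul_one] at this
    exact eq_neg_of_add_eq_zero_right this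
  rw [h4]
  refine B.neg_mem ?_
  exact Algebra.adjoin_le (Set.singleton_subset_iff.mpr hx)
    (Polynomial.aeval_mem_adjoin_singleton R x)

section Nodes

variable {V : Type} [CommRing V] {n : ℕ}

/-- the node polynomial `∏ (X - z a)` -/
def nodePoly (z : Fin n → V) : V[X] := ∏ a, (X - C (z a))

theorem nodePoly_monic (z : Fin n → V) : (nodePoly z).Monic :=
  monic_prod_of_monic _ _ fun _ _ => monic_X_sub_C _

theorem nodePoly_natDegree [Nontrivial V] (z : Fin n → V) : (nodePoly z).natDegree = n := by
  rw [nodePoly, natDegree_prod_of_monic _ _ fun a _ => monic_X_sub_C _]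
  simp

theorem aeval_nodePoly (z : Fin n → V) : aeval z (nodePoly z) = 0 := by
  funext b
  have h := Polynomial.aeval_algHom_apply (Pi.evalAlgHom V (fun _ : Fin n => V) b) z (nodePoly z)
  have h' : (aeval z (nodePoly z)) b = aeval (z b) (nodePoly z) := h.symm
  rw [h', Pi.zero_apply, nodePoly, coe_aeval_eq_eval, eval_prod]
  exact Finset.prod_eq_zero (Finset.mem_univ b) (by simp)

theorem nodePoly_map_residue [IsLocalRing V] (z : Fin n → V) (hz : ∀ a, z a ∈ IsLocalRing.maximalIdeal V) :
    (nodePoly z).map (IsLocalRing.residue V) = X ^ n := by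
  have : ∀ a, IsLocalRing.residue V (z a) = 0 := fun a =>
    (IsLocalRing.residue_eq_zero_iff _).mpr (hz a)
  simp [nodePoly, Polynomial.map_prod, this]

/-- **Key reduction.**  `z^n G(z)` is a combination of `1, z, …, z^{n-1}` with coefficients in
the maximal ideal. -/
theorem key_reduce [IsLocalRing V] (z : Fin n → V) (hz : ∀ a, z a ∈ IsLocalRing.maximalIdeal V) (G : V[X]) :
    ∃ r : Fin n → V, (∀ i, r i ∈ IsLocalRing.maximalIdeal V) ∧
      aeval z (X ^ n * G) = ∑ i : Fin n, r i • z ^ (i : ℕ) := by
  rcases Nat.eq_zero_or_pos n with h0 | hpos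
  · subst h0
    exact ⟨fun _ => 0, fun i => i.elim0, Subsingleton.elim _ _⟩
  have hν : (nodePoly z).Monic := nodePoly_monic z
  have hν1 : nodePoly z ≠ 1 := by
    intro h
    have := nodePoly_natDegree z
    rw [h, natDegree_one] at this
    omega
  set R : V[X] := (X ^ n * G) %ₘ nodePoly z with hR
  have hdeg : R.natDegree < n := by
    have := natDegree_modByMonic_lt (X ^ n * G) hν hν1
    rwa [nodePoly_natDegree] at this
  have hmap : R.map (IsLocalRing.residue V) = 0 := by
    rw [hR, map_modByMonic _ hν, nodePoly_map_residue z hz, Polynomial.map_mul,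
      Polynomial.map_pow, map_X]
    exact (modByMonic_eq_zero_iff_dvd (monic_X_pow n)).mpr (dvd_mul_right _ _)
  have hcoeff : ∀ i, R.coeff i ∈ IsLocalRing.maximalIdeal V := by
    intro i
    rw [← IsLocalRing.residue_eq_zero_iff, ← coeff_map, hmap, coeff_zero]
  have hev : aeval z (X ^ n * G) = aeval z R := by
    have := modByMonic_add_div (X ^ n * G) (nodePoly z)
    conv_lhs => rw [← this]
    rw [map_add, map_mul, aeval_nodePoly, zero_mul, add_zero]
  refine ⟨fun i => R.coeff i, fun i => hcoeff i, ?_⟩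
  rw [hev, aeval_eq_sum_range' hdeg, ← Fin.sum_univ_eq_sum_range (fun i => R.coeff i • z ^ i) n]

end Nodes

/-- Taylor expansion in a discrete valuation ring with residue field `k`. -/
theorem expand_uniformizer {k O : Type} [Field k] [CommRing O] [IsDomain O]
    [IsDiscreteValuationRing O] [Algebra k O] (u : O) (hu : Irreducible u)
    (hres : ∀ h : O, ∃ c : k, h - algebraMap k O c ∈ IsLocalRing.maximalIdeal O)
    (m : ℕ) (h : O) : ∃ (q : k[X]) (g : O), h = aeval u q + u ^ m * g := by
  induction m with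
  | zero => exact ⟨0, h, by simp⟩
  | succ m ih =>
    obtain ⟨q, g, hq⟩ := ih
    obtain ⟨c, hc⟩ := hres g
    rw [hu.maximalIdeal_eq, Ideal.mem_span_singleton'] at hc
    obtain ⟨g', hg'⟩ := hc
    refine ⟨q + C c * X ^ m, g', ?_⟩
    have hg : g = algebraMap k O c + g' * u := by rw [hg']; ring
    rw [hq, map_add, map_mul, aeval_C, map_pow, aeval_X]
    conv_lhs => rw [hg]
    ring

theorem interpolation : Fermat.Agent.H92.MW.InterpolationStatement := by
  intro k O V _ _ _ _ _ _ _ _ _ u n P hu hres hfin hzmax _hzinj h c hh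
  classical
  obtain ⟨S, hS⟩ := hfin
  set z : Fin n → V := fun a => P a u with hz
  let PP : O →ₐ[k] (Fin n → V) := AlgHom.pi P
  have hPPu : PP u = z := rfl
  have hPPa : ∀ (g : O) (a : Fin n), PP g a = P a g := fun _ _ => rfl
  let B1 : Subalgebra V (Fin n → V) := Algebra.adjoin V (PP '' (S : Set O))
  have hint : ∀ x : Fin n → V, IsIntegral V x := fun x => IsIntegral.of_finite V x
  have hfg : (Subalgebra.toSubmodule B1).FG :=
    fg_adjoin_of_finite ((S.finite_toSet).image _) (fun x _ => hint x)
  have hadj : ∀ p ∈ Algebra.adjoin k (S : Set O), PP p ∈ B1 := by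
    intro p hp
    induction hp using Algebra.adjoin_induction with
    | mem x hx => exact Algebra.subset_adjoin ⟨x, hx, rfl⟩
    | algebraMap r =>
      rw [AlgHom.commutes, IsScalarTower.algebraMap_apply k V (Fin n → V)]
      exact B1.algebraMap_mem _
    | add x y _ _ hx hy => rw [map_add]; exact B1.add_mem hx hy
    | mul x y _ _ hx hy => rw [map_mul]; exact B1.mul_mem hx hy
  have hPPmem : ∀ g : O, PP g ∈ B1 := by
    intro g
    obtain ⟨p, q, hp, hq, hqu, hgq⟩ := hS g
    obtain ⟨q', hq'⟩ := hqu.exists_right_inv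
    have hinv : PP q' ∈ B1 :=
      inv_mem_of_isIntegral B1 (hadj q hq) (by rw [← map_mul, hq', map_one]) (hint _)
    have : PP g = PP p * PP q' := by
      rw [← hgq, map_mul, mul_assoc, ← map_mul, hq', map_one, mul_one]
    rw [this]
    exact B1.mul_mem (hadj p hp) hinv
  let N : Submodule V (Fin n → V) :=
    LinearMap.range (aeval z : V[X] →ₐ[V] (Fin n → V)).toLinearMap
  have haevalk : ∀ q : k[X], PP (aeval u q) = aeval z (q.map (algebraMap k V)) := by
    intro q
    rw [← aeval_algHom_apply, hPPu, aeval_map_algebraMap]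
  have hNN : Subalgebra.toSubmodule B1 ≤
      N ⊔ IsLocalRing.maximalIdeal V • Subalgebra.toSubmodule B1 := by
    have hspan : Subalgebra.toSubmodule B1 ≤ Submodule.span V (Set.range PP) := by
      show Subalgebra.toSubmodule (Algebra.adjoin V (PP '' (S : Set O))) ≤ _
      rw [Algebra.adjoin_eq_span]
      apply Submodule.span_mono
      have : Submonoid.closure (PP '' (S : Set O)) ≤
          MonoidHom.mrange (PP : O →* (Fin n → V)) := by
        rw [Submonoid.closure_le]
        rintro _ ⟨s, _, rfl⟩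
        exact ⟨s, rfl⟩
      intro x hx
      obtain ⟨y, hy⟩ := this hx
      exact ⟨y, hy⟩
    refine hspan.trans (Submodule.span_le.mpr ?_)
    rintro _ ⟨g, rfl⟩
    obtain ⟨q, g', hg⟩ := expand_uniformizer u hu hres n g
    obtain ⟨r, hr, hrz⟩ := key_reduce z hzmax 1
    have hzn : z ^ n = ∑ i : Fin n, r i • z ^ (i : ℕ) := by
      rw [← hrz, mul_one, map_pow, aeval_X]
    have h1 : PP g = aeval z (q.map (algebraMap k V)) +
        ∑ i : Fin n, r i • PP (u ^ (i : ℕ) * g') := by
      rw [hg, map_add, haevalk, map_mul, map_pow, hPPu, hzn, Finset.sum_mul]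
      congr 1
      refine Finset.sum_congr rfl fun i _ => ?_
      rw [map_mul, map_pow, hPPu, smul_mul_assoc]
    show PP g ∈ N ⊔ IsLocalRing.maximalIdeal V • Subalgebra.toSubmodule B1
    rw [h1]
    refine Submodule.add_mem _ (Submodule.mem_sup_left ⟨_, rfl⟩) (Submodule.mem_sup_right ?_)
    exact Submodule.sum_mem _ fun i _ => Submodule.smul_mem_smul (hr i) (hPPmem _)
  have hle : Subalgebra.toSubmodule B1 ≤ N :=
    Submodule.le_of_le_smul_of_le_jacobson_bot hfg (IsLocalRing.maximalIdeal_le_jacobson ⊥) hNN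
  rw [Ideal.mem_span_singleton'] at hh
  obtain ⟨g, hg⟩ := hh
  obtain ⟨G, hG⟩ := hle (hPPmem g)
  have hG' : aeval z G = PP g := hG
  obtain ⟨r, hr, hrz⟩ := key_reduce z hzmax G
  refine ⟨fun i => algebraMap k V (c i) + r i, fun a => ?_, fun i => by simpa using hr i⟩
  have hh' : h = ∑ i : Fin n, algebraMap k O (c i) * u ^ (i : ℕ) + g * u ^ n := by
    rw [hg]; ring
  have h2 := congrFun hrz a
  rw [map_mul, map_pow, aeval_X, hG'] at h2
  simp only [Pi.mul_apply, Pi.pow_apply, Finset.sum_apply, Pi.smul_apply, smul_eq_mul,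
    hPPa] at h2
  rw [hh', map_add, map_sum, map_mul, map_pow]
  simp only [map_mul, map_pow, AlgHom.commutes, add_mul, Finset.sum_add_distrib]
  rw [mul_comm (P a g), ← h2]
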